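import Fermat.Agent.S24.Alg
import Fermat.Agent.S24.Mod
import Fermat.Agent.S24.FFIdentity
import Fermat.Agent.S24.FFFinite

/-!
# S18 / T2 — CONST_F: a function without zeros (or without zeros and poles) is constant
(characteristic zero; helper84)

Exact statement needed by `H94.result_of_qCore`:
`ConstOfOrdZero Q̄ (modularFunctionFieldBar N)`, i.e.
`∀ u ≠ 0, (∀ v : Place Q̄ F_N, v.ord u = 0) → ∃ c, u = algebraMap Q̄ F_N c`.
-/

set_option autoImplicit false

noncomputable section

open AlgebraicCurve ModularCurve IntermediateField

namespace Fermat.Agent.S18.H84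

section Generic

variable {K F : Type*} [Field K] [Field F] [Algebra K F] [IsAlgClosed K] [CharZero K]

/-- In a function field of one variable over an algebraically closed field of characteristic
zero, a function without zeros is constant. -/
theorem const_of_forall_ord_nonpos (x : F) (hx : Transcendental K x)
    [FiniteDimensional K⟮x⟯ F] (u : F) (hu : ∀ v : Place K F, v.ord u ≤ 0) :
    ∃ c : K, u = algebraMap K F c := by
  by_contra hc
  have hnot : u ∉ (algebraMap K F).range := by
    rintro ⟨c, rfl⟩
    exact hc ⟨c, rfl⟩
  have hut : Transcendental K u := Fermat.Agent.S24.FF.transcendental_of_not_mem_range hnot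
  have : FiniteDimensional K⟮u⟯ F :=
    Fermat.Agent.S24.FF.finiteDimensional_adjoin_of_transcendental hx hut
  have hsum := Fermat.Agent.S24.FF.sum_ord_eq_finrank hut (∅ : Finset (Place K F))
    (fun v => by
      simp only [Finset.notMem_empty, false_iff, not_lt]
      exact hu v)
  rw [Finset.sum_empty] at hsum
  have hpos : 0 < Module.finrank K⟮u⟯ F := Module.finrank_pos
  omega

/-- In a function field of one variable over an algebraically closed field of characteristic
zero, a function without zeros and poles is constant. -/
theorem const_of_forall_ord_eq_zero (x : F) (hx : Transcendental K x)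
    [FiniteDimensional K⟮x⟯ F] (u : F) (hu : ∀ v : Place K F, v.ord u = 0) :
    ∃ c : K, u = algebraMap K F c :=
  const_of_forall_ord_nonpos x hx u fun v => (hu v).le

end Generic

/-- **T2 (CONST_F)** for the modular function field over `Q̄`. -/
theorem constOfOrdZero_modularFunctionFieldBar (N : ℕ) [NeZero N]
    (u : modularFunctionFieldBar N) (_hu0 : u ≠ 0)
    (hu : ∀ v : Place (AlgebraicClosure ℚ) (modularFunctionFieldBar N), v.ord u = 0) :
    ∃ c : AlgebraicClosure ℚ, u = algebraMap (AlgebraicClosure ℚ) (modularFunctionFieldBar N) c := by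
  obtain ⟨P⟩ := Fermat.Agent.S24.nonempty_modularPackage N
  have := P.finiteDimensional
  have : Nonempty (Fermat.Agent.S24.XX N) := ⟨QuotientGroup.mk 1⟩
  have hj : Transcendental (AlgebraicClosure ℚ) (Fermat.Agent.S24.jF N) :=
    Fermat.Agent.S24.transcendental_of_localData_inv (Fermat.Agent.S24.jF N) P.dataInf
  exact const_of_forall_ord_eq_zero (Fermat.Agent.S24.jF N) hj u hu

/-- The modular function field over `Q̄` is finite over `Q̄(u)` for every non-constant `u`,
and `u` is transcendental. -/
theorem finiteDimensional_adjoin_modularFunctionFieldBar (N : ℕ) [NeZero N]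
    (u : modularFunctionFieldBar N)
    (hu : u ∉ (algebraMap (AlgebraicClosure ℚ) (modularFunctionFieldBar N)).range) :
    Transcendental (AlgebraicClosure ℚ) u ∧
      FiniteDimensional (AlgebraicClosure ℚ)⟮u⟯ (modularFunctionFieldBar N) := by
  obtain ⟨P⟩ := Fermat.Agent.S24.nonempty_modularPackage N
  have := P.finiteDimensional
  have : Nonempty (Fermat.Agent.S24.XX N) := ⟨QuotientGroup.mk 1⟩
  have hj : Transcendental (AlgebraicClosure ℚ) (Fermat.Agent.S24.jF N) :=
    Fermat.Agent.S24.transcendental_of_localData_inv (Fermat.Agent.S24.jF N) P.dataInf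
  have hut : Transcendental (AlgebraicClosure ℚ) u :=
    Fermat.Agent.S24.FF.transcendental_of_not_mem_range hu
  exact ⟨hut, Fermat.Agent.S24.FF.finiteDimensional_adjoin_of_transcendental hj hut⟩

end Fermat.Agent.S18.H84
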